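import Fermat.Agent.BrauerInduction.Basic
import Fermat.Agent.CharacterTheory.Artin
import Fermat.Agent.CharacterTheory.Degree
import Mathlib.Analysis.Complex.Norm
import Mathlib.Algebra.Order.Chebyshev

/-!
# The Frobenius–Schur indicator

The average of `A(g) X A(g)ᵀ` over an irreducible matrix representation is an invariant form. These
are multiples of one of them, which is thus symmetric or alternating, so the mean of `χ(g²)` is `±`
that of `χ(g)²`, the latter being `1` for a real-valued character and `0` otherwise.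
-/

set_option autoImplicit false
set_option linter.style.haveILetI false

noncomputable section

open Finset Module Matrix FA.FrobeniusGroups FA.CharacterTheory
open scoped ComplexConjugate

namespace FA.FrobeniusCounting

variable {G : Type*} [Group G] [Fintype G]

/-- The Frobenius–Schur indicator. -/
def indicator (χ : G → ℂ) : ℂ := (Nat.card G : ℂ)⁻¹ * ∑ x, χ (x * x)

variable {d : Type*} [Fintype d] [DecidableEq d]

/-- The average of `A(g) X A(g)ᵀ`. -/
def average (A : G →* Matrix d d ℂ) (X : Matrix d d ℂ) : Matrix d d ℂ :=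
  (Nat.card G : ℂ)⁻¹ • ∑ g, A g * X * (A g)ᵀ

theorem average_invariant (A : G →* Matrix d d ℂ) (X : Matrix d d ℂ) (h : G) :
    A h * average A X * (A h)ᵀ = average A X := by
  rw [average, mul_smul_comm, smul_mul_assoc, mul_sum, sum_mul]
  congr 1
  refine Fintype.sum_equiv (Equiv.mulLeft h) _ _ fun g => ?_
  simp [Matrix.transpose_mul, Matrix.mul_assoc]

theorem average_transpose (A : G →* Matrix d d ℂ) (X : Matrix d d ℂ) :
    average A Xᵀ = (average A X)ᵀ := by
  simp [average, Matrix.transpose_sum, Matrix.transpose_mul, Matrix.mul_assoc]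

theorem average_single (A : G →* Matrix d d ℂ) (k l i j : d) :
    average A (Matrix.single k l 1) i j = (Nat.card G : ℂ)⁻¹ * ∑ g, A g i k * A g j l := by
  simp [average, Matrix.sum_apply, Matrix.mul_apply, Matrix.single, ite_and]

omit [Fintype G] in
/-- An invariant form is the dual intertwining map. -/
theorem semiconj_of_invariant {A : G →* Matrix d d ℂ} {M : Matrix d d ℂ}
    (hM : ∀ g, A g * M * (A g)ᵀ = M) (g : G) : SemiconjBy M (A g⁻¹)ᵀ (A g) := by
  show M * (A g⁻¹)ᵀ = A g * M
  conv_lhs => rw [← hM g]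
  rw [Matrix.mul_assoc, ← Matrix.transpose_mul, ← map_mul, inv_mul_cancel, map_one,
    Matrix.transpose_one, Matrix.mul_one]

/-- **Frobenius–Schur**: the mean of `χ(g²)` is `±` that of `χ(g)²`. -/
theorem exists_sign {V : Type*} [AddCommGroup V] [Module ℂ V] [FiniteDimensional ℂ V]
    (ρ : Representation ℂ G V) [Representation.IsIrreducible ρ] :
    ∃ c : ℂ, c ^ 2 = 1 ∧
      indicator ρ.character = c * ((Nat.card G : ℂ)⁻¹ * ∑ x, ρ.character x * ρ.character x) := by
  classical
  set b := finBasis ℂ V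
  set E := LinearMap.toMatrixAlgEquiv b
  set A : G →* Matrix (Fin (finrank ℂ V)) (Fin (finrank ℂ V)) ℂ :=
    E.toAlgHom.toMonoidHom.comp ρ
  have hA : ∀ g, A g = E (ρ g) := fun g => rfl
  have htr : ∀ g, ρ.character g = ∑ i, A g i i := fun g => by
    rw [Representation.character, LinearMap.trace_eq_matrix_trace ℂ b]
    rfl
  have hind : indicator ρ.character = ∑ i, ∑ j, average A (Matrix.single j i 1) i j := by
    simp only [indicator, average_single, htr, map_mul, Matrix.mul_apply, ← mul_sum]
    congr 1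
    rw [sum_comm]
    exact sum_congr rfl fun i _ => sum_comm
  have hsq : (Nat.card G : ℂ)⁻¹ * ∑ x, ρ.character x * ρ.character x =
      ∑ i, ∑ j, average A (Matrix.single i j 1) i j := by
    simp only [average_single, htr, ← mul_sum]
    congr 1
    rw [sum_congr rfl fun g _ => sum_mul_sum univ univ _ _, sum_comm]
    exact sum_congr rfl fun i _ => sum_comm
  rw [hind, hsq]
  by_cases h0 : ∀ i j, average A (Matrix.single i j 1) = 0
  · exact ⟨1, one_pow 2, by simp [h0]⟩
  push Not at h0
  obtain ⟨i₀, j₀, hne⟩ := h0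
  set M := average A (Matrix.single i₀ j₀ 1)
  have hMinv : ∀ g, A g * M * (A g)ᵀ = M := average_invariant A _
  have hMu : IsUnit M := by
    set f : Module.End ℂ V := E.symm M
    set W : Subrepresentation ρ := ⟨LinearMap.range f, fun g v hv => by
      obtain ⟨w, rfl⟩ := hv
      refine ⟨E.symm (A g⁻¹)ᵀ w, ?_⟩
      have h := congrArg E.symm (semiconj_of_invariant hMinv g).eq
      rw [map_mul, map_mul, hA g, AlgEquiv.symm_apply_apply] at h
      exact LinearMap.congr_fun h w⟩
    rcases eq_bot_or_eq_top W with h | h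
    · refine absurd ?_ hne
      rw [← map_eq_zero_iff E.symm E.symm.injective]
      exact LinearMap.range_eq_bot.1 (congrArg Subrepresentation.toSubmodule h)
    · have hsur := LinearMap.range_eq_top.1 (congrArg Subrepresentation.toSubmodule h)
      have hu : IsUnit f :=
        (Module.End.isUnit_iff f).2 ⟨LinearMap.injective_iff_surjective.2 hsur, hsur⟩
      simpa [f] using hu.map E
  obtain ⟨u, hu⟩ := hMu
  have hscal : ∀ N, (∀ g, A g * N * (A g)ᵀ = N) → ∃ w : ℂ, N = w • M := fun N hN => by
    set L := N * (↑u⁻¹ : Matrix (Fin (finrank ℂ V)) (Fin (finrank ℂ V)) ℂ)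
    have hL : ∀ g, Commute L (A g) := fun g => by
      have h := semiconj_of_invariant hMinv g
      rw [← hu] at h
      exact (semiconj_of_invariant hN g).mul_left h.units_inv_symm_left
    obtain ⟨w, hw⟩ :=
      (Representation.IsIrreducible.algebraMap_intertwiningMap_bijective_of_isAlgClosed
        (ρ := ρ)).2 ⟨E.symm L, fun g => by
          show E.symm L * ρ g = ρ g * E.symm L
          rw [← E.symm_apply_apply (ρ g), ← map_mul, ← map_mul, ← hA, (hL g).eq]⟩
    have he : E.symm L = algebraMap ℂ (Module.End ℂ V) w :=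
      (congrArg Representation.IntertwiningMap.toLinearMap hw).symm
    have hLw := E.symm.injective (he.trans (E.symm.commutes w).symm)
    refine ⟨w, ?_⟩
    calc N = L * M := by rw [← hu, Units.inv_mul_cancel_right]
      _ = w • M := by rw [hLw, Algebra.smul_def]
  obtain ⟨c, hc⟩ := hscal Mᵀ fun g => by
    conv_rhs => rw [← hMinv g]
    simp [Matrix.transpose_mul, Matrix.mul_assoc]
  refine ⟨c, ?_, ?_⟩
  · have h := congrArg Matrix.transpose hc
    rw [Matrix.transpose_transpose, Matrix.transpose_smul, hc, smul_smul] at h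
    have h' : (1 - c * c) • M = 0 := by rw [sub_smul, one_smul, ← h, sub_self]
    rw [sq]
    exact (sub_eq_zero.1 ((smul_eq_zero.1 h').resolve_right hne)).symm
  rw [mul_sum]
  refine sum_congr rfl fun i _ => ?_
  rw [mul_sum]
  refine sum_congr rfl fun j _ => ?_
  obtain ⟨w, hw⟩ := hscal _ (average_invariant A (Matrix.single i j 1))
  rw [← Matrix.transpose_single i j, average_transpose, hw, Matrix.transpose_smul, hc,
    Matrix.smul_apply, Matrix.smul_apply, Matrix.smul_apply, smul_eq_mul, smul_eq_mul, smul_eq_mul]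
  ring

omit d

/-- `χ(x⁻¹)` is the conjugate of `χ(x)`. -/
theorem irr_inv {χ : G → ℂ} (hχ : χ ∈ irr G) (x : G) : χ x⁻¹ = conj (χ x) := by
  classical
  obtain ⟨W, -, rfl⟩ := exists_of_mem_irr hχ
  set Z := Subgroup.zpowers x
  suffices h : ∀ f ∈ AddSubgroup.closure (irr Z : Set (Z → ℂ)), ∀ y : Z, f y⁻¹ = conj (f y) from
    h _ (FA.BrauerInduction.character_mem_closure (G := Z)
      (W.toRepresentation.comp Z.subtype)) ⟨x, Subgroup.mem_zpowers x⟩
  intro f hf
  induction hf using AddSubgroup.closure_induction with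
  | zero => simp
  | add a b _ _ ha hb => intro y; simp [ha y, hb y]
  | neg a _ ha => intro y; simp [ha y]
  | mem a ha =>
    intro y
    obtain ⟨ψ, rfl⟩ := exists_hom_of_comm (fun a b => mul_comm' a b) ha
    show ((ψ y⁻¹ : ℂˣ) : ℂ) = conj (ψ y : ℂ)
    rw [map_inv, Units.val_inv_eq_inv_val, Complex.inv_eq_conj]
    refine Complex.norm_eq_one_of_pow_eq_one ?_ (orderOf_pos y).ne'
    rw [← Units.val_pow_eq_pow_val, ← map_pow, pow_orderOf_eq_one, map_one, Units.val_one]

open scoped Classical in
/-- The mean square of an irreducible character. -/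
theorem mean_sq {χ : G → ℂ} (hχ : χ ∈ irr G) :
    (Nat.card G : ℂ)⁻¹ * ∑ x, χ x * χ x = if ∀ x, conj (χ x) = χ x then 1 else 0 := by
  have h := pairing_irr hχ (inv_mem_irr hχ)
  simp only [pairing, inv_inv] at h
  rw [h]
  refine if_congr ⟨fun h x => ?_, fun h => funext fun x => ?_⟩ rfl rfl
  · exact (irr_inv hχ x).symm.trans (congrFun h x).symm
  · rw [irr_inv hχ, h]

/-- **The Frobenius–Schur theorem.** -/
theorem indicator_irr {χ : G → ℂ} (hχ : χ ∈ irr G) :
    ((∀ x, conj (χ x) = χ x) ∧ (indicator χ = 1 ∨ indicator χ = -1)) ∨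
      ((¬∀ x, conj (χ x) = χ x) ∧ indicator χ = 0) := by
  classical
  have hm := mean_sq hχ
  obtain ⟨W, hW, rfl⟩ := exists_of_mem_irr hχ
  haveI := hW
  obtain ⟨c, hc, hi⟩ := exists_sign W.toRepresentation
  by_cases h : ∀ x, conj (W.toRepresentation.character x) = W.toRepresentation.character x
  · rw [hm, if_pos h, mul_one] at hi
    exact Or.inl ⟨h, hi ▸ sq_eq_one_iff.1 hc⟩
  · rw [hm, if_neg h, mul_zero] at hi
    exact Or.inr ⟨h, hi⟩

open scoped Classical in
/-- **The number of square roots.** -/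
theorem card_sqrt (g : G) :
    (#(univ.filter fun x : G => x * x = g) : ℂ) = ∑ χ ∈ irr G, indicator χ * χ g := by
  set f : G → ℂ := fun z => #(univ.filter fun x : G => x * x = z)
  have hf : ∀ c z, f (c * z * c⁻¹) = f z := fun c z => by
    refine congrArg Nat.cast (card_equiv (MulAut.conj c).toEquiv fun x => ?_).symm
    simp only [mem_filter, mem_univ, true_and]
    show x * x = z ↔ MulAut.conj c x * MulAut.conj c x = MulAut.conj c z
    rw [← map_mul, (MulAut.conj c).injective.eq_iff]
  show f g = _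
  rw [expansion hf g]
  refine sum_congr rfl fun χ hχ => ?_
  congr 1
  have h1 : ∑ z, f z * χ z⁻¹ = ∑ x, χ (x * x)⁻¹ := by
    rw [← sum_fiberwise univ (fun x : G => x * x) fun x => χ (x * x)⁻¹]
    refine sum_congr rfl fun z _ => ?_
    rw [sum_congr rfl fun x hx => by rw [(mem_filter.1 hx).2], sum_const, nsmul_eq_mul]
  rw [pairing, indicator, h1]
  congr 1
  exact Fintype.sum_equiv (Equiv.inv G) _ _ fun x => by simp [_root_.mul_inv_rev]

open scoped Classical in
/-- **Real classes and real-valued characters are equally many.** -/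
theorem card_real_irr :
    #((irr G).filter fun χ => ∀ x, conj (χ x) = χ x) =
      Nat.card {c : ConjClasses G // ∀ x, ConjClasses.mk x = c → IsConj x⁻¹ x} := by
  haveI : Fintype (ConjClasses G) := Fintype.ofFinite _
  have hN : (Nat.card G : ℂ) ≠ 0 := Nat.cast_ne_zero.2 Nat.card_pos.ne'
  have h1 : (Nat.card G : ℂ) * #((irr G).filter fun χ => ∀ x, conj (χ x) = χ x) =
      ((∑ x : G, if IsConj x⁻¹ x then Nat.card (Subgroup.centralizer ({x} : Set G)) else 0 : ℕ) :
        ℂ) := by
    rw [card_filter, Nat.cast_sum, Nat.cast_sum, mul_sum]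
    have h : ∀ χ ∈ irr G, (Nat.card G : ℂ) *
        ((if ∀ x, conj (χ x) = χ x then 1 else 0 : ℕ) : ℂ) = ∑ x, χ x * χ x := fun χ hχ => by
      rw [Nat.cast_ite, Nat.cast_one, Nat.cast_zero, ← mean_sq hχ, mul_inv_cancel_left₀ hN]
    rw [sum_congr rfl h, sum_comm]
    refine sum_congr rfl fun x _ => ?_
    have hcol := column_orthogonality x⁻¹ x
    rw [inv_inv] at hcol
    rw [hcol, show Subgroup.centralizer ({x⁻¹} : Set G) = Subgroup.centralizer {x} by
      ext z; simp [Subgroup.mem_centralizer_singleton_iff, Commute.inv_right_iff,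
        ← commute_iff_eq]]
    split_ifs <;> simp
  set R := fun c : ConjClasses G => ∀ x, ConjClasses.mk x = c → IsConj x⁻¹ x
  have hR : ∀ y, R (ConjClasses.mk y) ↔ IsConj y⁻¹ y := fun y => ⟨fun h => h y rfl, fun h x hx =>
    by
    obtain ⟨g, rfl⟩ := isConj_iff.1 (ConjClasses.mk_eq_mk_iff_isConj.1 hx).symm
    obtain ⟨a, ha⟩ := isConj_iff.1 h
    exact isConj_iff.2 ⟨g * a * g⁻¹, by
      rw [show g * a * g⁻¹ * (g * y * g⁻¹)⁻¹ * (g * a * g⁻¹)⁻¹ = g * (a * y⁻¹ * a⁻¹) * g⁻¹ by
        group, ha]⟩⟩
  have h2 : ∑ x : G, (if IsConj x⁻¹ x then Nat.card (Subgroup.centralizer ({x} : Set G)) else 0) =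
      Nat.card G * Nat.card {c // R c} := by
    rw [← sum_fiberwise univ ConjClasses.mk, Nat.card_eq_fintype_card (α := {c // R c}),
      Fintype.card_subtype, card_filter, mul_sum]
    refine sum_congr rfl fun c _ => ?_
    obtain ⟨y, rfl⟩ := ConjClasses.mk_surjective c
    rw [mul_ite, mul_one, mul_zero, if_congr (hR y) rfl rfl,
      sum_congr rfl (g := fun _ => if IsConj y⁻¹ y then
        Nat.card (Subgroup.centralizer ({y} : Set G)) else 0) fun x hx => ?_, sum_const,
      smul_eq_mul, mul_ite, mul_zero]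
    · refine if_congr Iff.rfl ?_ rfl
      rw [← Subgroup.index_mul_card (Subgroup.centralizer ({y} : Set G))]
      congr 1
      rw [FA.Klein.index_centralizer_singleton, Set.ncard_eq_toFinset_card']
      congr 1
      ext z
      simp only [mem_filter, mem_univ, true_and, Set.mem_toFinset, Set.mem_range,
        ConjClasses.mk_eq_mk_iff_isConj]
      rw [← isConj_iff (a := y) (b := z)]
      exact ⟨IsConj.symm, IsConj.symm⟩
    obtain ⟨g, rfl⟩ := isConj_iff.1 (ConjClasses.mk_eq_mk_iff_isConj.1 (mem_filter.1 hx).2).symm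
    refine if_congr ?_ ?_ rfl
    · rw [← hR, ← hR, (mem_filter.1 hx).2]
    · refine Nat.card_congr ((MulAut.conj g).toEquiv.subtypeEquiv fun z => ?_).symm
      rw [Subgroup.mem_centralizer_singleton_iff, Subgroup.mem_centralizer_singleton_iff]
      show z * y = y * z ↔ MulAut.conj g z * MulAut.conj g y = MulAut.conj g y * MulAut.conj g z
      rw [← map_mul, ← map_mul, (MulAut.conj g).injective.eq_iff]
  rw [h2, Nat.cast_mul] at h1
  exact_mod_cast mul_left_cancel₀ hN h1

open scoped Classical in
/-- The solutions of `x² = 1` are bounded by the real classes. -/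
theorem sq_card_involutions_le :
    #(univ.filter fun x : G => x * x = 1) ^ 2 ≤
      Nat.card {c : ConjClasses G // ∀ x, ConjClasses.mk x = c → IsConj x⁻¹ x} * Nat.card G := by
  rw [← card_real_irr]
  choose! e he using fun (χ : G → ℂ) (hχ : χ ∈ irr G) => show ∃ e : ℤ,
      indicator χ = e ∧ |e| = if ∀ x, conj (χ x) = χ x then 1 else 0 by
    rcases indicator_irr hχ with ⟨h, h1 | h1⟩ | ⟨h, h1⟩
    · exact ⟨1, by simp [h1], by simp [if_pos h]⟩
    · exact ⟨-1, by simp [h1], by simp [if_pos h]⟩
    · exact ⟨0, by simp [h1], by simp [if_neg h]⟩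
  choose! n hn using fun (χ : G → ℂ) (hχ : χ ∈ irr G) => irr_one hχ
  set S := (irr G).filter fun χ => ∀ x, conj (χ x) = χ x
  have hT : (#(univ.filter fun x : G => x * x = 1) : ℤ) = ∑ χ ∈ irr G, e χ * n χ := by
    have h := card_sqrt (1 : G)
    rw [sum_congr rfl fun χ hχ => by rw [(he χ hχ).1, (hn χ hχ).2]] at h
    exact_mod_cast h
  have hle : #(univ.filter fun x : G => x * x = 1) ≤ ∑ χ ∈ S, n χ := by
    rw [← Int.ofNat_le, hT, sum_filter, Nat.cast_sum]
    refine sum_le_sum fun χ hχ => (le_abs_self _).trans ?_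
    rw [abs_mul, (he χ hχ).2, Nat.abs_cast]
    split_ifs <;> simp
  have hsq : ∑ χ ∈ irr G, n χ ^ 2 = Nat.card G := by
    have h := sum_sq_degree (G := G)
    rw [sum_congr rfl fun χ hχ => by rw [(hn χ hχ).2]] at h
    exact_mod_cast h
  refine (Nat.pow_le_pow_left hle 2).trans (sq_sum_le_card_mul_sum_sq.trans ?_)
  exact Nat.mul_le_mul_left _ (hsq ▸ sum_le_sum_of_subset (filter_subset _ _))

end FA.FrobeniusCounting

end
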