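import Fermat.Agent.Klein.Polyhedral
import Mathlib.Data.Nat.Totient
import Mathlib.GroupTheory.SpecificGroups.Cyclic
import Mathlib.Algebra.Group.Conj
import Mathlib.Data.Nat.ModEq
import Mathlib.Tactic.LinearCombination
import Mathlib.RingTheory.Coprime.Lemmas

/-!
# The solutions of `xⁿ = 1`

Isaacs and Robinson's proof of Frobenius' theorem: with `n = pᵏ m` and `p n ∣ |G|`, the elements
with `x ^ (p n) = 1 ≠ x ^ n` are as many as a multiple of `φ (pᵏ⁺¹)`, and, sorted by their
`p`-parts `y`, of `m` by the theorem for the smaller groups `C(y)/⟨y⟩`.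
-/

set_option autoImplicit false
set_option linter.style.haveILetI false

noncomputable section

open Finset

namespace FA.FrobeniusCounting

universe u

variable {G : Type u} [Group G] [Fintype G]

open scoped Classical in
/-- The elements of order `o` are as many as a multiple of `φ o`. -/
theorem totient_dvd_card_orderOf (o : ℕ) :
    o.totient ∣ #(univ.filter fun x : G => orderOf x = o) := by
  rw [card_eq_sum_card_image Subgroup.zpowers (univ.filter fun x : G => orderOf x = o)]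
  refine dvd_sum fun C hC => ?_
  obtain ⟨x, hx, rfl⟩ := mem_image.1 hC
  replace hx := (mem_filter.1 hx).2
  refine dvd_of_eq ?_
  rw [← IsCyclic.card_orderOf_eq_totient (α := Subgroup.zpowers x) (d := o)
    (by rw [← Nat.card_eq_fintype_card, Nat.card_zpowers, hx])]
  refine card_nbij (fun a => (a : G)) (fun a ha => ?_) (fun a _ b _ h => Subtype.ext h) ?_
  · simp only [coe_filter, mem_univ, true_and, Set.mem_ofPred_eq] at ha ⊢
    simp only [mem_filter, mem_univ, true_and]
    refine ⟨(Subgroup.orderOf_coe a).trans ha, ?_⟩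
    refine Subgroup.eq_of_le_of_card_ge (Subgroup.zpowers_le.2 a.2) ?_
    rw [Nat.card_zpowers, Nat.card_zpowers, Subgroup.orderOf_coe, ha, hx]
  · intro y hy
    simp only [coe_filter, mem_filter, mem_univ, true_and, Set.mem_ofPred_eq] at hy
    refine ⟨⟨y, hy.2 ▸ Subgroup.mem_zpowers y⟩, ?_, rfl⟩
    simp only [coe_filter, mem_univ, true_and, Set.mem_ofPred_eq]
    rw [← Subgroup.orderOf_coe]
    exact hy.1

open scoped Classical in
/-- The `m`-th roots of `1` centralising `y`. -/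
def commRoots (m : ℕ) (y : G) : Finset G := univ.filter fun z => Commute z y ∧ z ^ m = 1

theorem card_commRoots_conj (m : ℕ) (g y : G) :
    #(commRoots m (g * y * g⁻¹)) = #(commRoots m y) := by
  classical
  refine (card_equiv (MulAut.conj g).toEquiv fun z => ?_).symm
  simp only [commRoots, mem_filter, mem_univ, true_and]
  refine and_congr ?_ ?_
  · show Commute z y ↔ Commute (MulAut.conj g z) (MulAut.conj g y)
    exact ⟨fun h => h.map _, fun h => MulEquiv.injective (MulAut.conj g)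
      (by simpa only [map_mul] using h.eq)⟩
  · show z ^ m = 1 ↔ MulAut.conj g z ^ m = 1
    rw [← map_pow, map_eq_one_iff _ (MulAut.conj g).injective]

/-- The class of `y` contributes a multiple of `m`. -/
theorem dvd_index_mul_card_commRoots {p k m : ℕ} (hp : p.Prime) (hm : (p ^ (k + 1)).Coprime m)
    (hdvd : p ^ (k + 1) * m ∣ Nat.card G)
    (ih : ∀ (Q : Type u) [Group Q] [Fintype Q], Nat.card Q < Nat.card G →
      ∀ j, j ∣ Nat.card Q → j ∣ Nat.card {q : Q // q ^ j = 1})
    {y : G} (hy : orderOf y = p ^ (k + 1)) :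
    m ∣ (Subgroup.centralizer ({y} : Set G)).index * #(commRoots m y) := by
  classical
  set C := Subgroup.centralizer ({y} : Set G) with hC
  have hmemC : ∀ z, z ∈ C ↔ Commute z y := fun z => Subgroup.mem_centralizer_singleton_iff
  set y' : C := ⟨y, (hmemC y).2 (Commute.refl y)⟩
  set Z := Subgroup.zpowers y'
  haveI : Z.Normal := ⟨fun a ha g => by
    obtain ⟨i, rfl⟩ := ha
    have : Commute g y' := Subtype.ext ((hmemC g).1 g.2).eq
    rw [(this.zpow_right i).eq, mul_inv_cancel_right]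
    exact Subgroup.zpow_mem_zpowers _ _⟩
  have hZ : Nat.card Z = p ^ (k + 1) := by rw [Nat.card_zpowers, Subgroup.orderOf_mk, hy]
  have hQ : Nat.card C = Nat.card (C ⧸ Z) * p ^ (k + 1) := by
    rw [Subgroup.card_eq_card_quotient_mul_card_subgroup Z, hZ]
  have hlt : Nat.card (C ⧸ Z) < Nat.card G := by
    refine lt_of_lt_of_le ?_ (Subgroup.card_le_card_group C)
    rw [hQ]
    exact lt_mul_of_one_lt_right Nat.card_pos (Nat.one_lt_pow (Nat.succ_ne_zero k) hp.one_lt)
  have hy' : orderOf y' = p ^ (k + 1) := by rw [Subgroup.orderOf_mk, hy]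
  have hT : Nat.card {q : C ⧸ Z // q ^ m = 1} = #(commRoots m y) := by
    rw [← Nat.card_eq_finsetCard]
    refine (Nat.card_congr (Equiv.ofBijective (fun z : commRoots m y =>
      (⟨((⟨z.1, (hmemC _).2 (mem_filter.1 z.2).2.1⟩ : C) : C ⧸ Z), by
        rw [← QuotientGroup.mk_pow, show (⟨z.1, _⟩ : C) ^ m = 1 from
          Subtype.ext (mem_filter.1 z.2).2.2, QuotientGroup.mk_one]⟩ :
        {q : C ⧸ Z // q ^ m = 1})) ⟨fun a b hab => ?_, fun q => ?_⟩)).symm
    · have ha := (mem_filter.1 a.2).2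
      have hb := (mem_filter.1 b.2).2
      obtain ⟨i, hi⟩ := QuotientGroup.eq.1 (congrArg Subtype.val hab)
      have hi' : y ^ i = (a : G)⁻¹ * b := congrArg Subtype.val hi
      have hb' : (b : G) = a * y ^ i := by rw [hi', mul_inv_cancel_left]
      have h1 : y ^ (i * m) = 1 := by
        have h := hb.2
        rw [hb', ((ha.1).zpow_right i).mul_pow, ha.2, one_mul, ← zpow_natCast, ← zpow_mul] at h
        exact h
      rw [← orderOf_dvd_iff_zpow_eq_one, hy] at h1
      have h2 : y ^ i = 1 := orderOf_dvd_iff_zpow_eq_one.1 (hy ▸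
        Int.dvd_of_dvd_mul_left_of_gcd_one h1 (by rw [Int.gcd_natCast_natCast]; exact hm))
      exact Subtype.ext (by rw [hb', h2, mul_one])
    · obtain ⟨⟨q⟩, hq⟩ := q
      obtain ⟨j, hj⟩ := (QuotientGroup.eq_one_iff _).1 (show ((q ^ m : C) : C ⧸ Z) = 1 from hq)
      obtain ⟨a, b, hab⟩ : ∃ a b : ℤ, a * (m : ℤ) + b * (p ^ (k + 1) : ℕ) = 1 :=
        Nat.isCoprime_iff_coprime.2 hm.symm
      have hcy : Commute q y' := Subtype.ext ((hmemC q).1 q.2).eq
      set z : C := q * y' ^ (-(j * a))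
      have hz : z ^ m = 1 := by
        rw [(hcy.zpow_right _).mul_pow, ← zpow_natCast (y' ^ _), ← zpow_mul,
          ← (show y' ^ j = q ^ m from hj), ← zpow_add, ← orderOf_dvd_iff_zpow_eq_one, hy']
        exact ⟨j * b, by push_cast at hab ⊢; linear_combination (-j) * hab⟩
      refine ⟨⟨z, mem_filter.2 ⟨mem_univ _, (hmemC _).1 z.2, congrArg Subtype.val hz⟩⟩,
        Subtype.ext (QuotientGroup.eq.2 ⟨j * a, ?_⟩)⟩
      show y' ^ (j * a) = z⁻¹ * q
      rw [mul_inv_rev, ← zpow_neg, neg_neg, mul_assoc, inv_mul_cancel, mul_one]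
  have h1 : m.gcd (Nat.card (C ⧸ Z)) ∣ #(commRoots m y) := by
    refine hT ▸ (ih (C ⧸ Z) hlt _ (Nat.gcd_dvd_right _ _)).trans (dvd_of_eq ?_)
    refine Nat.card_congr (Equiv.subtypeEquivRight fun q => ?_)
    rw [← orderOf_dvd_iff_pow_eq_one, ← orderOf_dvd_iff_pow_eq_one, Nat.dvd_gcd_iff,
      and_iff_left (orderOf_dvd_natCard q)]
  refine dvd_trans ?_ (Nat.mul_dvd_mul_left C.index h1)
  rw [← Nat.gcd_mul_left]
  refine Nat.dvd_gcd (dvd_mul_left m _) ?_
  refine Nat.Coprime.dvd_of_dvd_mul_right hm.symm ?_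
  rw [mul_assoc, ← hQ, Subgroup.index_mul_card]
  exact (dvd_mul_left m _).trans hdvd

open scoped Classical in
/-- The elements whose `p`-part has order `pᵏ⁺¹` and whose other part is killed by `m`. -/
theorem pow_mul_dvd_card_layer {p k m : ℕ} (hp : p.Prime) (hpm : ¬p ∣ m)
    (hdvd : p ^ (k + 1) * m ∣ Nat.card G)
    (ih : ∀ (Q : Type u) [Group Q] [Fintype Q], Nat.card Q < Nat.card G →
      ∀ j, j ∣ Nat.card Q → j ∣ Nat.card {q : Q // q ^ j = 1}) :
    p ^ k * m ∣ #(univ.filter fun x : G =>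
      x ^ (p ^ (k + 1) * m) = 1 ∧ ¬x ^ (p ^ k * m) = 1) := by
  have hpm' : p.Coprime m := (Nat.Prime.coprime_iff_not_dvd hp).2 hpm
  set P := p ^ (k + 1)
  have hm : P.Coprime m := hpm'.pow_left _
  set D := univ.filter fun x : G => x ^ (P * m) = 1 ∧ ¬x ^ (p ^ k * m) = 1
  have hmem : ∀ x, x ∈ D ↔ orderOf x ∣ P * m ∧ ¬orderOf x ∣ p ^ k * m := fun x => by
    simp [D, orderOf_dvd_iff_pow_eq_one]
  refine Nat.Coprime.mul_dvd_of_dvd_of_dvd (hpm'.pow_left _) ?_ ?_
  · rw [card_eq_sum_card_image orderOf D]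
    refine dvd_sum fun o ho => ?_
    obtain ⟨x, hx, rfl⟩ := mem_image.1 ho
    have he : (D.filter fun z => orderOf z = orderOf x) =
        univ.filter fun z : G => orderOf z = orderOf x := by
      ext z
      simp only [mem_filter, mem_univ, true_and, and_iff_right_iff_imp]
      exact fun hz => (hmem z).2 (hz ▸ (hmem x).1 hx)
    rw [he]
    refine dvd_trans ?_ (totient_dvd_card_orderOf (G := G) (orderOf x))
    obtain ⟨h1, h2⟩ := (hmem x).1 hx
    have hP : P ∣ orderOf x := by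
      obtain ⟨a, b, ha, hb, hab⟩ := exists_dvd_and_dvd_of_dvd_mul h1
      obtain ⟨i, hi, rfl⟩ := (Nat.dvd_prime_pow hp).1 ha
      rcases Nat.lt_or_ge i (k + 1) with hlt | hge
      · exact absurd (hab ▸ Nat.mul_dvd_mul (pow_dvd_pow p (by omega)) hb) h2
      · rw [hab]; exact (pow_dvd_pow p hge).trans (dvd_mul_right _ _)
    refine dvd_trans ?_ (Nat.totient_dvd_of_dvd hP)
    rw [Nat.totient_prime_pow_succ hp]
    exact dvd_mul_right _ _
  obtain ⟨e₁, he₁, he₁'⟩ := Nat.chineseRemainder hm 1 0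
  obtain ⟨e₂, he₂, he₂'⟩ := Nat.chineseRemainder hm 0 1
  have hPe₂ : P ∣ e₂ := Nat.modEq_zero_iff_dvd.1 he₂
  have hme₁ : m ∣ e₁ := Nat.modEq_zero_iff_dvd.1 he₁'
  have hone : e₁ + e₂ ≡ 1 [MOD P * m] :=
    (Nat.modEq_and_modEq_iff_modEq_mul hm).1 ⟨he₁.add he₂, he₁'.add he₂'⟩
  have hsplit : ∀ x : G, x ^ (P * m) = 1 → x ^ e₁ * x ^ e₂ = x := fun x hx => by
    rw [← pow_add, pow_eq_pow_iff_modEq.2 (hone.of_dvd (orderOf_dvd_of_pow_eq_one hx)), pow_one]
  have hkill : ∀ x : G, x ^ (P * m) = 1 → ∀ e, P ∣ e → (x ^ e) ^ m = 1 := fun x hx e he => by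
    obtain ⟨c, rfl⟩ := he
    rw [← pow_mul, mul_right_comm, pow_mul, hx, one_pow]
  have hY : ∀ x ∈ D, orderOf (x ^ e₁) = P := fun x hx => by
    obtain ⟨-, hx1, hx2⟩ := mem_filter.1 hx
    haveI := Fact.mk hp
    refine orderOf_eq_prime_pow (fun h => hx2 ?_) ?_
    · conv_lhs => rw [← hsplit x hx1]
      rw [(Commute.pow_pow_self x _ _).mul_pow, pow_mul, h, one_pow, one_mul, mul_comm, pow_mul,
        hkill x hx1 e₂ hPe₂, one_pow]
    · obtain ⟨c, rfl⟩ := hme₁
      rw [← pow_mul, show m * c * p ^ (k + 1) = P * m * c by ring, pow_mul, hx1, one_pow]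
  set Y := univ.filter fun y : G => orderOf y = P
  rw [card_eq_sum_card_fiberwise (f := fun x : G => x ^ e₁) (t := Y)
    fun x hx => mem_filter.2 ⟨mem_univ _, hY x hx⟩]
  have hfib : ∀ y ∈ Y, #(D.filter fun x => x ^ e₁ = y) = #(commRoots m y) := fun y hy => by
    replace hy := (mem_filter.1 hy).2
    have hyP : y ^ P = 1 := hy ▸ pow_orderOf_eq_one y
    have hy1 : ∀ e, e ≡ 1 [MOD P] → y ^ e = y := fun e he => by
      rw [pow_eq_pow_iff_modEq.2 (hy.symm ▸ he : e ≡ 1 [MOD orderOf y]), pow_one]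
    refine card_nbij' (fun x => x ^ e₂) (fun z => y * z) (fun x hx => ?_) (fun z hz => ?_)
      (fun x hx => ?_) fun z hz => ?_
    · simp only [coe_filter, Set.mem_ofPred_eq] at hx
      obtain ⟨hxD, rfl⟩ := hx
      exact mem_filter.2 ⟨mem_univ _, Commute.pow_pow_self x _ _,
        hkill x (mem_filter.1 hxD).2.1 e₂ hPe₂⟩
    · obtain ⟨-, hzy, hzm⟩ := mem_filter.1 hz
      refine mem_filter.2 ⟨mem_filter.2 ⟨mem_univ _, ?_, fun h => ?_⟩, ?_⟩
      · rw [hzy.symm.mul_pow, pow_mul, hyP, one_pow, one_mul, mul_comm, pow_mul, hzm, one_pow]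
      · rw [hzy.symm.mul_pow, mul_comm (p ^ k) m, pow_mul z, hzm, one_pow, mul_one,
          ← orderOf_dvd_iff_pow_eq_one, hy] at h
        have := Nat.le_of_dvd (pow_pos hp.pos k) (hm.dvd_of_dvd_mul_left h)
        exact absurd this (not_le.2 (Nat.pow_lt_pow_right hp.one_lt (Nat.lt_succ_self k)))
      · obtain ⟨c, rfl⟩ := hme₁
        rw [hzy.symm.mul_pow, hy1 _ he₁, pow_mul, hzm, one_pow, mul_one]
    · simp only [coe_filter, Set.mem_ofPred_eq] at hx
      obtain ⟨hxD, rfl⟩ := hx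
      exact hsplit x (mem_filter.1 hxD).2.1
    · obtain ⟨-, hzy, hzm⟩ := mem_filter.1 hz
      obtain ⟨c, rfl⟩ := hPe₂
      show (y * z) ^ (P * c) = z
      rw [hzy.symm.mul_pow, pow_mul, hyP, one_pow, one_mul]
      have : P * c ≡ 1 [MOD orderOf z] := he₂'.of_dvd (orderOf_dvd_of_pow_eq_one hzm)
      rw [pow_eq_pow_iff_modEq.2 this, pow_one]
  rw [sum_congr rfl hfib]
  haveI : Fintype (ConjClasses G) := Fintype.ofFinite _
  rw [← sum_fiberwise Y ConjClasses.mk fun y => #(commRoots m y)]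
  refine dvd_sum fun c _ => ?_
  rcases (Y.filter fun y => ConjClasses.mk y = c).eq_empty_or_nonempty with h | ⟨y, hy⟩
  · rw [h]; simp
  obtain ⟨hyY, rfl⟩ := mem_filter.1 hy
  have hy' := (mem_filter.1 hyY).2
  rw [sum_congr rfl (g := fun _ => #(commRoots m y)) fun z hz => by
    obtain ⟨g, rfl⟩ := isConj_iff.1 (ConjClasses.mk_eq_mk_iff_isConj.1 (mem_filter.1 hz).2).symm
    exact card_commRoots_conj m g y, sum_const, smul_eq_mul]
  refine (dvd_index_mul_card_commRoots hp hm hdvd ih hy').trans (dvd_of_eq ?_)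
  congr 1
  rw [FA.Klein.index_centralizer_singleton, Set.ncard_eq_toFinset_card']
  congr 1
  ext z
  simp only [mem_filter, Set.mem_toFinset, Set.mem_range, ConjClasses.mk_eq_mk_iff_isConj, Y,
    mem_univ, true_and]
  refine ⟨?_, fun h => isConj_iff.1 h.2.symm⟩
  rintro ⟨g, rfl⟩
  exact ⟨by rw [← hy', ← MulAut.conj_apply, MulEquiv.orderOf_eq], (isConj_iff.2 ⟨g, rfl⟩).symm⟩

/-- **Frobenius' theorem**: for `n ∣ |G|` the solutions of `xⁿ = 1` are a multiple of `n`. -/
theorem dvd_card_pow_eq_one (G : Type u) [Group G] [Fintype G] {n : ℕ} (hn : n ∣ Nat.card G) :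
    n ∣ Nat.card {x : G // x ^ n = 1} := by
  classical
  induction hN : Nat.card G using Nat.strong_induction_on generalizing G n with
  | _ N IH =>
    subst hN
    induction hd : Nat.card G / n using Nat.strong_induction_on generalizing n with
    | _ d IHd =>
      subst hd
      have hn0 : n ≠ 0 := (Nat.pos_of_dvd_of_pos hn Nat.card_pos).ne'
      obtain ⟨r, hr⟩ := hn
      by_cases hr1 : r = 1
      · subst hr1
        rw [mul_one] at hr
        rw [Nat.card_congr (Equiv.subtypeUnivEquiv fun x : G => by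
          rw [← hr]; exact pow_card_eq_one'), hr]
      obtain ⟨p, hp, hpr⟩ := Nat.exists_prime_and_dvd hr1
      have hpn : p * n ∣ Nat.card G := by
        rw [hr, mul_comm]; exact Nat.mul_dvd_mul_left n hpr
      have hlt : Nat.card G / (p * n) < Nat.card G / n := by
        rw [mul_comm, ← Nat.div_div_eq_div_mul]
        exact Nat.div_lt_self (Nat.div_pos (Nat.le_of_dvd Nat.card_pos ⟨r, hr⟩)
          (Nat.pos_of_ne_zero hn0)) hp.one_lt
      have h1 := IHd _ hlt hpn rfl
      obtain ⟨k, m, hpm, hkm⟩ := Nat.exists_eq_pow_mul_and_not_dvd hn0 p hp.ne_one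
      have hpn' : p * n = p ^ (k + 1) * m := by rw [hkm, pow_succ']; ring
      have h2 := pow_mul_dvd_card_layer (G := G) hp hpm (hpn' ▸ hpn)
        fun Q _ _ hQ j hj => IH _ hQ Q hj rfl
      rw [← hkm, ← hpn'] at h2
      simp only [Nat.card_eq_fintype_card, Fintype.card_subtype] at h1 ⊢
      rw [← card_filter_add_card_filter_not (s := univ.filter fun x : G => x ^ (p * n) = 1)
        (fun x => x ^ n = 1), filter_filter, filter_filter,
        filter_congr (q := fun x : G => x ^ n = 1) fun x _ =>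
          ⟨And.right, fun h => ⟨by rw [mul_comm, pow_mul, h, one_pow], h⟩⟩] at h1
      exact (Nat.dvd_add_left h2).1 (dvd_trans (dvd_mul_left n p) h1)

end FA.FrobeniusCounting

end
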